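import Mathlib
import Fermat.Prelude.Def_ModularCurve_X0ModL
import Fermat.Prelude.Def_AlgebraicCurve_BaseChangeGalois

/-!
# RED / Frobk : the coefficient Frobenius on the special fibre

For a field `k` and a ring automorphism `s` of `k` the coefficientwise map `coeffMap s` is a
semilinear automorphism of `Fb_M = modularFunctionFieldFullC k M`.  For `k` perfect of
characteristic `ℓ` we obtain the coefficient Frobenius `frobC`, acting on places, divisors and
`Pic0`; `u(q^ℓ) = (σ⁻¹ u)^ℓ`.
-/

set_option autoImplicit false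

open ModularCurve AlgebraicCurve HahnSeries

namespace Fermat.Agent.RED

noncomputable section

section Series

variable {R : Type*} [CommRing R]

theorem qExpand_ofPowerSeries (n : ℕ) [NeZero n] (φ : PowerSeries R) :
    qExpand R n (HahnSeries.ofPowerSeries ℤ R φ) =
      HahnSeries.ofPowerSeries ℤ R (PowerSeries.expand n (NeZero.ne n) φ) := by
  ext m
  by_cases hm : (n : ℤ) ∣ m
  · obtain ⟨c, rfl⟩ := hm
    rw [qExpand_coeff_mul]
    rcases le_or_gt 0 c with hc | hc
    · lift c to ℕ using hc
      rw [HahnSeries.ofPowerSeries_apply_coeff, ← Nat.cast_mul,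
        HahnSeries.ofPowerSeries_apply_coeff, PowerSeries.coeff_expand_mul]
    · have hn : (0 : ℤ) < n := by exact_mod_cast Nat.pos_of_ne_zero (NeZero.ne n)
      rw [ofPowerSeries_coeff_of_neg _ hc,
        ofPowerSeries_coeff_of_neg _ (mul_neg_of_pos_of_neg hn hc)]
  · rw [qExpand_coeff_of_not_dvd n _ hm]
    rcases le_or_gt 0 m with hc | hc
    · lift m to ℕ using hc
      rw [HahnSeries.ofPowerSeries_apply_coeff, PowerSeries.coeff_expand_of_not_dvd]
      exact fun h => hm (by exact_mod_cast h)
    · rw [ofPowerSeries_coeff_of_neg _ hc]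

/-- In characteristic `ℓ`: `(σ x)(q^ℓ) = x^ℓ`, `σ` the coefficient Frobenius. -/
theorem qExpand_coeffMap_frobenius (ℓ : ℕ) [NeZero ℓ] [ExpChar R ℓ] (x : LaurentSeries R) :
    qExpand R ℓ (coeffMap (frobenius R ℓ) x) = x ^ ℓ := by
  have hx := LaurentSeries.single_order_mul_powerSeriesPart x
  have h1 : PowerSeries.expand ℓ (NeZero.ne ℓ) (PowerSeries.map (frobenius R ℓ) x.powerSeriesPart)
      = x.powerSeriesPart ^ ℓ := by
    rw [← PowerSeries.map_expand]
    exact MvPowerSeries.map_frobenius_expand ℓ (NeZero.ne ℓ)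
  conv_lhs => rw [← hx]
  conv_rhs => rw [← hx]
  rw [map_mul, map_mul, mul_pow, coeffMap_single, qExpand_single, HahnSeries.single_pow,
    coeffMap_ofPowerSeries, qExpand_ofPowerSeries, h1, map_pow]
  simp

end Series

section Field

variable {k : Type*} [Field k] (M : ℕ)

/-- `Fb_M` is stable under every coefficientwise ring endomorphism. -/
theorem coeffMap_mem_fullC (s : k →+* k) {x : LaurentSeries k}
    (hx : x ∈ modularFunctionFieldFullC k M) : coeffMap s x ∈ modularFunctionFieldFullC k M := by
  unfold modularFunctionFieldFullC at hx ⊢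
  induction hx using IntermediateField.adjoin_induction with
  | mem x hx =>
    obtain ⟨d, hd, hdM, rfl⟩ := hx
    rw [coeffMap_qExpand, coeffMap_jqModC]
    exact IntermediateField.subset_adjoin _ _ ⟨d, hd, hdM, rfl⟩
  | algebraMap c =>
    rw [coeffMap_algebraMap]
    exact IntermediateField.algebraMap_mem _ _
  | add x y _ _ hx hy => rw [map_add]; exact add_mem hx hy
  | inv x _ hx => rw [map_inv₀]; exact inv_mem hx
  | mul x y _ _ hx hy => rw [map_mul]; exact mul_mem hx hy

/-- The coefficientwise ring automorphism of `Fb_M` attached to a ring automorphism of `k`. -/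
def coeffRingAutC (s : k ≃+* k) :
    modularFunctionFieldFullC k M ≃+* modularFunctionFieldFullC k M where
  toFun x := ⟨coeffMap (s : k →+* k) (x : LaurentSeries k), coeffMap_mem_fullC M _ x.2⟩
  invFun x := ⟨coeffMap (s.symm : k →+* k) (x : LaurentSeries k), coeffMap_mem_fullC M _ x.2⟩
  left_inv x := Subtype.ext <| by
    show coeffMap (s.symm : k →+* k) (coeffMap (s : k →+* k) (x : LaurentSeries k))
      = (x : LaurentSeries k)
    rw [coeffMap_coeffMap,
      coeffMap_congr (g := RingHom.id k) (RingHom.ext fun a => s.symm_apply_apply a)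
        (x : LaurentSeries k),
      coeffMap_id]
  right_inv x := Subtype.ext <| by
    show coeffMap (s : k →+* k) (coeffMap (s.symm : k →+* k) (x : LaurentSeries k))
      = (x : LaurentSeries k)
    rw [coeffMap_coeffMap,
      coeffMap_congr (g := RingHom.id k) (RingHom.ext fun a => s.apply_symm_apply a)
        (x : LaurentSeries k),
      coeffMap_id]
  map_mul' x y :=
    Subtype.ext (map_mul (coeffMap (s : k →+* k)) (x : LaurentSeries k) (y : LaurentSeries k))
  map_add' x y :=
    Subtype.ext (map_add (coeffMap (s : k →+* k)) (x : LaurentSeries k) (y : LaurentSeries k))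

@[simp]
theorem coe_coeffRingAutC_apply (s : k ≃+* k) (x : modularFunctionFieldFullC k M) :
    (coeffRingAutC M s x : LaurentSeries k) = coeffMap (s : k →+* k) (x : LaurentSeries k) :=
  rfl

theorem coeffRingAutC_algebraMap (s : k ≃+* k) (a : k) :
    coeffRingAutC M s (algebraMap k (modularFunctionFieldFullC k M) a)
      = algebraMap k (modularFunctionFieldFullC k M) (s a) :=
  Subtype.ext (coeffMap_algebraMap (s : k →+* k) a)

/-- The semilinear action of `Aut k` on `Fb_M` (coefficientwise). -/
def coeffSemiC : RingAut k →* SemilinearAut k (modularFunctionFieldFullC k M) where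
  toFun s := ⟨(coeffRingAutC M s, s), fun a => coeffRingAutC_algebraMap M s a⟩
  map_one' := by
    refine Subtype.ext (Prod.ext (RingEquiv.ext fun x => Subtype.ext ?_) rfl)
    show coeffMap ((1 : RingAut k) : k →+* k) (x : LaurentSeries k) = (x : LaurentSeries k)
    rw [show ((1 : RingAut k) : k →+* k) = RingHom.id k from RingHom.ext fun _ => rfl,
      coeffMap_id]
  map_mul' s t := by
    refine Subtype.ext (Prod.ext (RingEquiv.ext fun x => Subtype.ext ?_) rfl)
    show coeffMap ((s * t : RingAut k) : k →+* k) (x : LaurentSeries k)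
      = coeffMap (s : k →+* k) (coeffMap (t : k →+* k) (x : LaurentSeries k))
    rw [coeffMap_coeffMap]
    exact coeffMap_congr (RingHom.ext fun _ => rfl) _

@[simp]
theorem toRingAut_coeffSemiC (s : RingAut k) :
    SemilinearAut.toRingAut (coeffSemiC M s) = coeffRingAutC M s := rfl

@[simp]
theorem baseAut_coeffSemiC (s : RingAut k) :
    SemilinearAut.baseAut (coeffSemiC M s) = s := rfl

theorem coe_coeffSemiC_smul (s : RingAut k) (x : modularFunctionFieldFullC k M) :
    ((coeffSemiC M s • x : modularFunctionFieldFullC k M) : LaurentSeries k)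
      = coeffMap (s : k →+* k) (x : LaurentSeries k) := rfl

end Field

section Abstract

variable {K F : Type*} [Field K] [Field F] [Algebra K F]

/-- `div (g f) = g_* div f`. -/
theorem semilinear_smul_isDiv (g : SemilinearAut K F) {D : Divisor K F} {f : F}
    (hD : ∀ v : Place K F, D v = v.ord f) (v : Place K F) : (g • D) v = v.ord (g • f) := by
  rw [SemilinearAut.divisor_smul_apply, hD (g⁻¹ • v)]
  have h := SemilinearAut.ord_smul g (g⁻¹ • v) f
  rw [smul_inv_smul] at h
  exact h.symm

theorem semilinear_ord_inv_smul (g : SemilinearAut K F) (v : Place K F) (f : F) :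
    v.ord (g⁻¹ • f) = (g • v).ord f := by
  have h := SemilinearAut.ord_smul g v (g⁻¹ • f)
  rw [smul_inv_smul] at h
  exact h.symm

theorem semilinear_smul_nonneg (g : SemilinearAut K F) {D : Divisor K F} (hD : 0 ≤ D) :
    0 ≤ g • D := by
  intro v
  rw [SemilinearAut.divisor_smul_apply]
  exact hD _

/-- The action of a semilinear automorphism on divisors, as an additive automorphism. -/
def semilinearDivEquiv (g : SemilinearAut K F) : Divisor K F ≃+ Divisor K F :=
  DistribMulAction.toAddEquiv (Divisor K F) g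

@[simp] theorem semilinearDivEquiv_apply (g : SemilinearAut K F) (D : Divisor K F) :
    semilinearDivEquiv g D = g • D := rfl

/-- The action of a semilinear automorphism on `Pic0`, as an additive automorphism. -/
def semilinearPicEquiv (g : SemilinearAut K F) : Pic0 K F ≃+ Pic0 K F :=
  DistribMulAction.toAddEquiv (Pic0 K F) g

@[simp] theorem semilinearPicEquiv_apply (g : SemilinearAut K F) (x : Pic0 K F) :
    semilinearPicEquiv g x = g • x := rfl

theorem semilinear_sum_smul (g : SemilinearAut K F) (D : Divisor K F) :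
    ((g • D).sum fun _ n => n) = D.sum fun _ n => n := by
  rw [SemilinearAut.divisor_smul_def, Finsupp.sum_mapDomain_index (fun _ => rfl)
    (fun _ _ _ => rfl)]

end Abstract

section Frob

variable (k : Type*) [Field k] (M : ℕ) (ℓ : ℕ) [Fact ℓ.Prime] [CharP k ℓ] [PerfectRing k ℓ]

/-- The coefficient Frobenius of `Fb_M`, as a semilinear automorphism. -/
def frobC : SemilinearAut k (modularFunctionFieldFullC k M) :=
  coeffSemiC M (frobeniusEquiv k ℓ)

theorem coe_frobC_smul (x : modularFunctionFieldFullC k M) :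
    ((frobC k M ℓ • x : modularFunctionFieldFullC k M) : LaurentSeries k)
      = coeffMap (frobenius k ℓ) (x : LaurentSeries k) := rfl

theorem baseAut_frobC : SemilinearAut.baseAut (frobC k M ℓ) = frobeniusEquiv k ℓ := rfl

/-- `u(q^ℓ) = (σ⁻¹ u)^ℓ`. -/
theorem qExpand_eq_frobC_inv_pow (x : modularFunctionFieldFullC k M) :
    qExpand k ℓ (x : LaurentSeries k)
      = ((((frobC k M ℓ)⁻¹ • x) ^ ℓ : modularFunctionFieldFullC k M) : LaurentSeries k) := by
  have h := qExpand_coeffMap_frobenius ℓ
    ((((frobC k M ℓ)⁻¹ • x : modularFunctionFieldFullC k M)) : LaurentSeries k)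
  rw [← coe_frobC_smul, smul_inv_smul] at h
  rw [h]
  rfl

/-- `Fb_M` is stable under `q ↦ q^ℓ` in characteristic `ℓ`. -/
theorem qExpand_mem_fullC {x : LaurentSeries k} (hx : x ∈ modularFunctionFieldFullC k M) :
    qExpand k ℓ x ∈ modularFunctionFieldFullC k M := by
  rw [show x = ((⟨x, hx⟩ : modularFunctionFieldFullC k M) : LaurentSeries k) from rfl,
    qExpand_eq_frobC_inv_pow k M ℓ]
  exact SetLike.coe_mem _

/-- `q ↦ q^ℓ` as an endomorphism of `Fb_M`. -/
def verC : modularFunctionFieldFullC k M →+* modularFunctionFieldFullC k M :=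
  ((qExpand k ℓ).comp (modularFunctionFieldFullC k M).val.toRingHom).codRestrict
    (modularFunctionFieldFullC k M).toSubfield.toSubring
    (fun x => qExpand_mem_fullC k M ℓ x.2)

theorem coe_verC (x : modularFunctionFieldFullC k M) :
    (verC k M ℓ x : LaurentSeries k) = qExpand k ℓ (x : LaurentSeries k) := rfl

theorem verC_eq (x : modularFunctionFieldFullC k M) :
    verC k M ℓ x = ((frobC k M ℓ)⁻¹ • x) ^ ℓ :=
  Subtype.ext (qExpand_eq_frobC_inv_pow k M ℓ x)

theorem verC_frobC (x : modularFunctionFieldFullC k M) :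
    verC k M ℓ (frobC k M ℓ • x) = x ^ ℓ := by
  rw [verC_eq, inv_smul_smul]

theorem ord_frobC (v : Place k (modularFunctionFieldFullC k M))
    (x : modularFunctionFieldFullC k M) :
    (frobC k M ℓ • v).ord (frobC k M ℓ • x) = v.ord x :=
  SemilinearAut.ord_smul _ v x

theorem ord_verC (v : Place k (modularFunctionFieldFullC k M))
    (x : modularFunctionFieldFullC k M) :
    v.ord (verC k M ℓ x) = ℓ * (frobC k M ℓ • v).ord x := by
  rw [verC_eq, ← zpow_natCast, Place.ord_zpow, semilinear_ord_inv_smul]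

/-- Frobenius on divisors. -/
def FrDiv : Divisor k (modularFunctionFieldFullC k M) →+
    Divisor k (modularFunctionFieldFullC k M) :=
  DistribSMul.toAddMonoidHom _ (frobC k M ℓ)

/-- Verschiebung on divisors: `ℓ • σ_*⁻¹`. -/
def VerDiv : Divisor k (modularFunctionFieldFullC k M) →+
    Divisor k (modularFunctionFieldFullC k M) :=
  ℓ • DistribSMul.toAddMonoidHom _ (frobC k M ℓ)⁻¹

theorem FrDiv_apply (D : Divisor k (modularFunctionFieldFullC k M)) :
    FrDiv k M ℓ D = frobC k M ℓ • D := rfl

theorem VerDiv_apply (D : Divisor k (modularFunctionFieldFullC k M)) :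
    VerDiv k M ℓ D = ℓ • ((frobC k M ℓ)⁻¹ • D) := rfl

theorem FrDiv_single (v : Place k (modularFunctionFieldFullC k M)) (n : ℤ) :
    FrDiv k M ℓ (Finsupp.single v n) = Finsupp.single (frobC k M ℓ • v) n := by
  rw [FrDiv_apply, SemilinearAut.smul_single]

theorem VerDiv_single (v : Place k (modularFunctionFieldFullC k M)) (n : ℤ) :
    VerDiv k M ℓ (Finsupp.single v n) = Finsupp.single ((frobC k M ℓ)⁻¹ • v) (ℓ * n) := by
  rw [VerDiv_apply, SemilinearAut.smul_single, Finsupp.smul_single, nsmul_eq_mul]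

theorem VerDiv_FrDiv (D : Divisor k (modularFunctionFieldFullC k M)) :
    VerDiv k M ℓ (FrDiv k M ℓ D) = ℓ • D := by
  rw [VerDiv_apply, FrDiv_apply, inv_smul_smul]

theorem FrDiv_VerDiv (D : Divisor k (modularFunctionFieldFullC k M)) :
    FrDiv k M ℓ (VerDiv k M ℓ D) = ℓ • D := by
  rw [VerDiv_apply, FrDiv_apply, smul_comm, smul_inv_smul]

theorem FrDiv_bijective : Function.Bijective (FrDiv k M ℓ) :=
  (semilinearDivEquiv (frobC k M ℓ)).bijective

/-- `div (σ u) = σ_* div u`. -/
theorem FrDiv_isDiv {D : Divisor k (modularFunctionFieldFullC k M)}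
    {u : modularFunctionFieldFullC k M} (hD : ∀ v, D v = v.ord u) (v) :
    FrDiv k M ℓ D v = v.ord (frobC k M ℓ • u) :=
  semilinear_smul_isDiv _ hD v

/-- `div (u(q^ℓ)) = ℓ σ_*⁻¹ div u`. -/
theorem VerDiv_isDiv {D : Divisor k (modularFunctionFieldFullC k M)}
    {u : modularFunctionFieldFullC k M} (hD : ∀ v, D v = v.ord u) (v) :
    VerDiv k M ℓ D v = v.ord (verC k M ℓ u) := by
  rw [VerDiv_apply, Finsupp.smul_apply, semilinear_smul_isDiv _ hD v, ord_verC,
    semilinear_ord_inv_smul, nsmul_eq_mul]

theorem FrDiv_nonneg {D : Divisor k (modularFunctionFieldFullC k M)} (hD : 0 ≤ D) :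
    0 ≤ FrDiv k M ℓ D := semilinear_smul_nonneg _ hD

theorem VerDiv_nonneg {D : Divisor k (modularFunctionFieldFullC k M)} (hD : 0 ≤ D) :
    0 ≤ VerDiv k M ℓ D := by
  rw [VerDiv_apply]
  exact nsmul_nonneg (semilinear_smul_nonneg _ hD) ℓ

theorem degree_FrDiv (D : Divisor k (modularFunctionFieldFullC k M)) :
    Divisor.degree (FrDiv k M ℓ D) = Divisor.degree D :=
  SemilinearAut.degree_smul _ D

theorem degree_VerDiv (D : Divisor k (modularFunctionFieldFullC k M)) :
    Divisor.degree (VerDiv k M ℓ D) = ℓ * Divisor.degree D := by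
  rw [VerDiv_apply, map_nsmul, SemilinearAut.degree_smul, nsmul_eq_mul]

/-- Frobenius on `Pic0`. -/
def FrPic : Pic0 k (modularFunctionFieldFullC k M) →+ Pic0 k (modularFunctionFieldFullC k M) :=
  DistribSMul.toAddMonoidHom _ (frobC k M ℓ)

/-- Verschiebung on `Pic0`. -/
def VerPic : Pic0 k (modularFunctionFieldFullC k M) →+ Pic0 k (modularFunctionFieldFullC k M) :=
  ℓ • DistribSMul.toAddMonoidHom _ (frobC k M ℓ)⁻¹

theorem FrPic_apply (x : Pic0 k (modularFunctionFieldFullC k M)) :
    FrPic k M ℓ x = frobC k M ℓ • x := rfl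

theorem VerPic_apply (x : Pic0 k (modularFunctionFieldFullC k M)) :
    VerPic k M ℓ x = ℓ • ((frobC k M ℓ)⁻¹ • x) := rfl

theorem VerPic_FrPic (x : Pic0 k (modularFunctionFieldFullC k M)) :
    VerPic k M ℓ (FrPic k M ℓ x) = ℓ • x := by
  rw [VerPic_apply, FrPic_apply, inv_smul_smul]

theorem FrPic_VerPic (x : Pic0 k (modularFunctionFieldFullC k M)) :
    FrPic k M ℓ (VerPic k M ℓ x) = ℓ • x := by
  rw [VerPic_apply, map_nsmul, FrPic_apply, smul_inv_smul]

theorem FrPic_bijective : Function.Bijective (FrPic k M ℓ) :=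
  (semilinearPicEquiv (frobC k M ℓ)).bijective

theorem FrPic_mk (D : Divisor.degZero (K := k) (F := modularFunctionFieldFullC k M)) :
    FrPic k M ℓ (Pic0.mk D) =
      Pic0.mk ⟨FrDiv k M ℓ D, SemilinearAut.smul_mem_degZero _ D.2⟩ := rfl

theorem VerDiv_mem_degZero {D : Divisor k (modularFunctionFieldFullC k M)}
    (hD : D ∈ Divisor.degZero (K := k) (F := modularFunctionFieldFullC k M)) :
    VerDiv k M ℓ D ∈ Divisor.degZero (K := k) (F := modularFunctionFieldFullC k M) := by
  rw [Divisor.mem_degZero] at hD ⊢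
  rw [degree_VerDiv, hD, mul_zero]

theorem VerPic_mk (D : Divisor.degZero (K := k) (F := modularFunctionFieldFullC k M)) :
    VerPic k M ℓ (Pic0.mk D) = Pic0.mk ⟨VerDiv k M ℓ D, VerDiv_mem_degZero k M ℓ D.2⟩ := by
  rw [VerPic_apply, SemilinearAut.pic0_smul_mk]
  rfl

end Frob

end

end Fermat.Agent.RED
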